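/-
P-SS2 (S36), J-side, row 1020 SS2-J7 KUM-PUSH (helper44): `KummerPushStatement`.

The torsion–character relation intertwines the push-forwards of divisor classes along the two
degeneracy maps with the corestrictions of characters.  Twin of
`Fermat.Agent.H35.kummerHecke_of_parts`.
-/
import Fermat.Agent.H63.SS2.Interfaces

set_option autoImplicit false
set_option linter.style.haveILetI false
set_option linter.unusedSectionVars false

noncomputable section

open AlgebraicCurve CongruenceSubgroup UpperHalfPlane IntermediateField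
open scoped MatrixGroups Manifold
open ModularCurve ModularCurve.Period

namespace Fermat.Agent.H44.SS2

open Fermat.Agent.H63.SS2 Fermat.Agent.H21 Fermat.Agent.H23.EsA Fermat.Agent.H11.SS2

/-! ### The analytic side: products of translates -/

/-- the product of the translates of `G` by a finite family of matrices -/
def famProd {X : Type} [Fintype X] (c : X → GL (Fin 2) ℝ) (G : ℍ → ℂ) : ℍ → ℂ :=
  fun z => ∏ k : X, G (c k • z)

theorem mdiff_famProd {X : Type} [Fintype X] (c : X → GL (Fin 2) ℝ)
    (hc : ∀ k, 0 < ((c k).det : ℝ)) {G : ℍ → ℂ} (hG : MDiff G) : MDiff (famProd c G) := by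
  classical
  have h1 : ∀ k : X, MDiff (fun z : ℍ => G (c k • z)) := fun k =>
    hG.comp (UpperHalfPlane.mdifferentiable_smul (hc k))
  have h2 : ∀ s : Finset X, MDiff (fun z : ℍ => ∏ k ∈ s, G (c k • z)) := by
    intro s
    induction s using Finset.induction_on with
    | empty =>
      simp only [Finset.prod_empty]
      exact mdifferentiable_const
    | insert a s ha ih =>
      simp only [Finset.prod_insert ha]
      exact (h1 a).mul ih
  exact h2 Finset.univ

theorem famProd_pow {X : Type} [Fintype X] (c : X → GL (Fin 2) ℝ) (G : ℍ → ℂ) (m : ℕ) :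
    famProd c G ^ m = famProd c (G ^ m) := by
  funext z
  simp only [famProd, Pi.pow_apply, Finset.prod_pow]

/-- the product of the translates transforms by the operator of the rewriting data -/
theorem hasCharacter_famProd {M N : ℕ} {X : Type} [Fintype X] {c : X → GL (Fin 2) ℝ}
    (h : Rew2 (gamma0ToGL M) (gamma0ToGL N) c) {G : ℍ → ℂ} {χ : ↥(Gamma0 M) →* ℂˣ}
    (hχ : HasCharacter M G χ) :
    HasCharacter N (famProd c G)
      (MonoidHom.toAdditive.symm (h.op (Additive ℂˣ) (MonoidHom.toAdditive χ))) := by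
  intro γ z
  have happ : (MonoidHom.toAdditive.symm (h.op (Additive ℂˣ) (MonoidHom.toAdditive χ))) γ
      = ∏ k, χ (h.kap γ k) := by
    have h2 : (MonoidHom.toAdditive.symm (h.op (Additive ℂˣ) (MonoidHom.toAdditive χ))) γ
        = Additive.toMul (h.op (Additive ℂˣ) (MonoidHom.toAdditive χ) (Additive.ofMul γ)) := rfl
    rw [h2, h.op_apply, toMul_sum]
    rfl
  rw [happ]
  simp only [famProd]
  have h1 : ∀ k : X, G (c k • ((γ : SL(2, ℤ)) • z))
      = (χ (h.kap γ k) : ℂ) * G (c (h.tgt γ k) • z) := by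
    intro k
    have h2 : c k • ((γ : SL(2, ℤ)) • z) = ((h.kap γ k : ↥(Gamma0 M)) : SL(2, ℤ)) •
        (c (h.tgt γ k) • z) := by
      have h3 : (γ : SL(2, ℤ)) • z = Matrix.SpecialLinearGroup.mapGL ℝ (γ : SL(2, ℤ)) • z := rfl
      have h4 : ((h.kap γ k : ↥(Gamma0 M)) : SL(2, ℤ)) • (c (h.tgt γ k) • z)
          = Matrix.SpecialLinearGroup.mapGL ℝ ((h.kap γ k : ↥(Gamma0 M)) : SL(2, ℤ)) •
            (c (h.tgt γ k) • z) := rfl
      rw [h3, h4, ← mul_smul, ← mul_smul]
      congr 1
      exact h.spec γ k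
    rw [h2, hχ (h.kap γ k)]
  rw [Finset.prod_congr rfl (fun k _ => h1 k), Finset.prod_mul_distrib]
  congr 1
  · push_cast
    rfl
  · exact Equiv.prod_comp (h.perm γ) (fun k => G (c k • z))

theorem det_corFamA_pos (L q : ℕ) (k : ZMod q) : 0 < ((corFamA L q k).det : ℝ) := by
  unfold corFamA
  simp

theorem det_corFamB_pos (q : ℕ) (k : ZMod q) : 0 < ((corFamB q k).det : ℝ) :=
  ModularForm.det_heckeMatrix_pos q k.val

/-! ### The algebraic side: the divisor of the norm -/

section Algebraic

variable {K F F' : Type*} [Field K] [Field F] [Field F'] [Algebra K F] [Algebra K F']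

/-- If `div f = m D` then `div (Norm_φ f) = m φ_* D`. -/
theorem ord_norm_push (φ : F →ₐ[K] F') (hφ : φ.toRingHom.IsIntegral)
    (hfin : FiniteAlong K φ) (hN : NormFormulaAlong K φ hfin)
    (m : ℤ) (D : Divisor K F') (f : F') (hf0 : f ≠ 0)
    (hf : ∀ w : Place K F', w.ord f = m * D w) (v : Place K F) :
    v.ord (ss2NormAlong φ f) = m * Divisor.pushforwardAlong φ hφ D v := by
  letI := algebraAlong φ
  haveI := isScalarTower_along φ
  haveI := isIntegral_along φ hφ
  haveI : Module.Finite F F' := hfin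
  have hN' : Divisor.PushforwardNormFormula K F F' := hN
  have h1 := hN' f hf0 (m • D) (fun w => by rw [Finsupp.smul_apply, smul_eq_mul, hf]) v
  have h2 : Divisor.pushforward F (m • D) v = m * Divisor.pushforwardAlong φ hφ D v := by
    rw [map_zsmul, Finsupp.smul_apply, smul_eq_mul]
    rfl
  rw [← h2, h1]
  rfl

theorem norm_along_ne_zero (φ : F →ₐ[K] F') (hfin : FiniteAlong K φ) (f : F') (hf0 : f ≠ 0) :
    ss2NormAlong φ f ≠ 0 := by
  letI := algebraAlong φ
  haveI : Module.Finite F F' := hfin
  exact Algebra.norm_ne_zero_iff.mpr hf0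

end Algebraic

/-! ### Assembly -/

/-- **[SS2-J7] KUM-PUSH.** -/
theorem kummerPush (hA : DegNormRepAStatement) (hB : DegNormRepBStatement)
    (hrew : CorRewStatement) : KummerPushStatement := by
  intro L q _ _ hq hqL m hm x χ hx
  have hDI := degInputs ℂ L q hq
  obtain ⟨hα, hβ, hfα, hfβ, hNα, hNβ⟩ := hDI
  obtain ⟨hrA, hrB⟩ := hrew L q hq hqL
  obtain ⟨D, f, G, hDx, hf0, hord, hG, hrep, hchar⟩ := hx
  constructor
  · refine ⟨degZeroPushAlong (heckeAlphaBar ℂ L q) hα D,
      ss2NormAlong (heckeAlphaBar ℂ L q) f, famProd (corFamA L q) G, ?_, ?_, ?_, ?_, ?_, ?_⟩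
    · rw [← hDx, pushA_mk (degInputs ℂ L q hq) hα D]
    · exact norm_along_ne_zero _ hfα f hf0
    · intro v
      exact ord_norm_push (heckeAlphaBar ℂ L q) hα hfα hNα (m : ℤ) (D : Divisor ℂ ↥(FC (L * q)))
        f hf0 hord v
    · exact mdiff_famProd _ (det_corFamA_pos L q) hG
    · rw [famProd_pow]
      exact hA L q hq hqL f (G ^ m) (hG.pow m) hrep
    · have h := hasCharacter_famProd hrA hchar
      have e : corCharA L q χ
          = MonoidHom.toAdditive.symm (hrA.op (Additive ℂˣ) (MonoidHom.toAdditive χ)) := by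
        unfold corCharA
        rw [corA_eq hrA]
      rw [e]
      exact h
  · refine ⟨degZeroPushAlong (heckeBetaBar ℂ L q) hβ D,
      ss2NormAlong (heckeBetaBar ℂ L q) f, famProd (corFamB q) G, ?_, ?_, ?_, ?_, ?_, ?_⟩
    · rw [← hDx, pushB_mk (degInputs ℂ L q hq) hβ D]
    · exact norm_along_ne_zero _ hfβ f hf0
    · intro v
      exact ord_norm_push (heckeBetaBar ℂ L q) hβ hfβ hNβ (m : ℤ) (D : Divisor ℂ ↥(FC (L * q)))
        f hf0 hord v
    · exact mdiff_famProd _ (det_corFamB_pos q) hG
    · rw [famProd_pow]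
      exact hB L q hq hqL f (G ^ m) (hG.pow m) hrep
    · have h := hasCharacter_famProd hrB hchar
      have e : corCharB L q χ
          = MonoidHom.toAdditive.symm (hrB.op (Additive ℂˣ) (MonoidHom.toAdditive χ)) := by
        unfold corCharB
        rw [corB_eq hrB]
      rw [e]
      exact h

end Fermat.Agent.H44.SS2

end
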